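import Fermat.Agent.GAL.ESR.Gauss
import Fermat.Agent.GR.HeckeField.Main
import Fermat.Agent.GAL.FF.ExtAlong

/-! # GAL / ESR / Field : the multiplicative Hecke operator `heckeS Qb ℓ` preserves the function
field `FL Qb M` (`ℓ ∤ M`) and the everywhere unramified Kummer elements `IsKum Qb M n`.

`heckeS Qb ℓ f = N_{F_{Mℓ}/F_M}(f(q^ℓ))` for `f ∈ F_M`. -/

set_option autoImplicit false

open ModularCurve AlgebraicCurve

noncomputable section

namespace Fermat.Agent.GAL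

open Fermat.Agent.S24 Fermat.Agent.GR.HeckeField

variable (M ℓ : ℕ) [NeZero M] [NeZero ℓ]

/-- on the function field, `heckeS` is the norm of `f(q^ℓ)` from level `Mℓ` to level `M`. -/
theorem heckeS_eq_heckeNorm (hℓ : ℓ.Prime) (hM : ¬ ℓ ∣ M) (f : FL Qb M) :
    heckeS Qb ℓ (f : LaurentSeries Qb) = ((heckeNorm M ℓ f : FN M) : LaurentSeries Qb) := by
  obtain ⟨ζ, hζ⟩ := exists_primitiveRoot_Qb ℓ
  apply qExpand_injective (R := Qb) ℓ
  rw [qExpand_heckeNorm M ℓ hℓ hM ζ hζ f, heckeS_apply, map_mul, qExpand_NmL ℓ hζ]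
  rfl

/-- **(B-nf-1)** `T_ℓ` preserves the function field of level `M`. -/
theorem heckeS_mem_FL (hℓ : ℓ.Prime) (hM : ¬ ℓ ∣ M) {f : LaurentSeries Qb} (hf : f ∈ FL Qb M) :
    heckeS Qb ℓ f ∈ FL Qb M := by
  rw [heckeS_eq_heckeNorm M ℓ hℓ hM ⟨f, hf⟩]
  exact (heckeNorm M ℓ ⟨f, hf⟩).2

attribute [local instance] algFN

/-- **(B-nf-2)** the norm of `f(q^ℓ)` has all its orders divisible by `n` if `f` has. -/
theorem dvd_ord_heckeNorm (hℓ : ℓ.Prime) (hM : ¬ ℓ ∣ M) (n : ℤ) (f : FN M)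
    (hf : ∀ P : Place Kb (FN M), n ∣ P.ord f) (P : Place Kb (FN M)) :
    n ∣ P.ord (heckeNorm M ℓ f) := by
  have := finiteDimensional_FN_mul M ℓ hℓ hM
  rcases eq_or_ne f 0 with rfl | hf0
  · have : heckeNorm M ℓ (0 : FN M) = 0 := by
      rw [heckeNorm, map_zero]
      have hfree : Module.Free (FN M) (FN (M * ℓ)) := Module.Free.of_divisionRing _ _
      exact Algebra.norm_zero
    rw [this]
    simp
  · have hb : bet M ℓ f ≠ 0 := (map_ne_zero (bet M ℓ)).mpr hf0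
    rw [heckeNorm, FF.ord_norm P hb]
    refine Finset.dvd_sum fun w _ => ?_
    rw [Place.ord_restrictAlong (bet M ℓ) (FF.isIntegral_toRingHom _) w f]
    exact Dvd.dvd.mul_left (hf _) _

/-- `T_ℓ` preserves everywhere unramified Kummer elements. -/
theorem IsKum.heckeS {n : ℕ} {h : LaurentSeries Qb} (hℓ : ℓ.Prime) (hM : ¬ ℓ ∣ M)
    (hK : IsKum Qb M n h) : IsKum Qb M n (heckeS Qb ℓ h) := by
  obtain ⟨h0, hf, hord⟩ := hK
  have hne : Fermat.Agent.GAL.heckeS Qb ℓ h ≠ 0 := by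
    obtain ⟨ζ, hζ⟩ := exists_primitiveRoot_Qb ℓ
    rw [heckeS_eq_formalT ℓ hζ]
    exact GR.formalT_ne_zero ℓ hζ h0
  have hpow : (Fermat.Agent.GAL.heckeS Qb ℓ h) ^ n =
      ((heckeNorm M ℓ ⟨h ^ n, hf⟩ : FN M) : LaurentSeries Qb) := by
    rw [← map_pow, heckeS_eq_heckeNorm M ℓ hℓ hM ⟨h ^ n, hf⟩]
  refine ⟨hne, by rw [hpow]; exact (heckeNorm M ℓ ⟨h ^ n, hf⟩).2, fun P => ?_⟩
  have := dvd_ord_heckeNorm M ℓ hℓ hM n ⟨h ^ n, hf⟩ hord P
  convert this using 2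
  exact Subtype.ext hpow

end Fermat.Agent.GAL
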