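import Mathlib
import Fermat.Agent.GAL.Defs
import Fermat.Agent.GR.FormalES

/-!
# GAL, block B (ESR): the norm `NmL R ℓ` of `R((q))` over `R((q^ℓ))`

* `NmL_eq_det`   : explicit determinant formula
* `NmL_coeffMap` : (B1) compatibility with change of coefficients
* `NmL_qExpand`  : `NmL (h(q^ℓ)) = h^ℓ`
* `qExpand_NmL`  : `(NmL h)(q^ℓ) = ∏_b h(ζ^b q)`, hence `NmL = GR.normU`, `heckeS = GR.formalT`
-/

set_option autoImplicit false
noncomputable section

namespace Fermat.Agent.GAL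

open ModularCurve HahnSeries

/-! ## abstract nonsense: a basis from a decomposition -/

section Abstract

variable {E₀ E ι : Type*} [CommRing E₀] [CommRing E] [Algebra E₀ E] [Fintype ι] [DecidableEq ι]

/-- the basis `e` of `E` over `E₀` with coordinate functions `s`. -/
def decompBasis (e : ι → E) (s : ι → E → E₀)
    (h1 : ∀ x, ∑ i, algebraMap E₀ E (s i x) * e i = x)
    (h2 : ∀ (g : ι → E₀) i, s i (∑ j, algebraMap E₀ E (g j) * e j) = g i) :
    Module.Basis ι E₀ E :=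
  Module.Basis.ofEquivFun
    { toFun := fun x i => s i x
      invFun := fun g => ∑ j, algebraMap E₀ E (g j) * e j
      left_inv := h1
      right_inv := fun g => funext (h2 g)
      map_add' := fun x y => by
        funext i
        have : x + y = ∑ j, algebraMap E₀ E (s j x + s j y) * e j := by
          simp only [map_add, add_mul, Finset.sum_add_distrib, h1]
        conv_lhs => rw [this]
        rw [h2]
        rfl
      map_smul' := fun c x => by
        funext i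
        have : c • x = ∑ j, algebraMap E₀ E (c * s j x) * e j := by
          simp only [map_mul, mul_assoc, ← Finset.mul_sum, h1, Algebra.smul_def]
        conv_lhs => rw [this]
        rw [h2]
        rfl }

omit [DecidableEq ι] in
theorem decompBasis_repr (e : ι → E) (s : ι → E → E₀)
    (h1 : ∀ x, ∑ i, algebraMap E₀ E (s i x) * e i = x)
    (h2 : ∀ (g : ι → E₀) i, s i (∑ j, algebraMap E₀ E (g j) * e j) = g i) (x : E) (i : ι) :
    (decompBasis e s h1 h2).repr x i = s i x :=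
  Module.Basis.ofEquivFun_repr_apply _ _ _

theorem decompBasis_apply (e : ι → E) (s : ι → E → E₀)
    (h1 : ∀ x, ∑ i, algebraMap E₀ E (s i x) * e i = x)
    (h2 : ∀ (g : ι → E₀) i, s i (∑ j, algebraMap E₀ E (g j) * e j) = g i) (i : ι) :
    decompBasis e s h1 h2 i = e i := by
  rw [decompBasis, Module.Basis.coe_ofEquivFun]
  show ∑ j, algebraMap E₀ E ((Pi.single i 1 : ι → E₀) j) * e j = e i
  rw [Finset.sum_eq_single i]
  · simp
  · intro j _ hj
    simp [Pi.single_eq_of_ne hj]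
  · intro h
    exact absurd (Finset.mem_univ i) h

theorem norm_eq_det_of_decomp (e : ι → E) (s : ι → E → E₀)
    (h1 : ∀ x, ∑ i, algebraMap E₀ E (s i x) * e i = x)
    (h2 : ∀ (g : ι → E₀) i, s i (∑ j, algebraMap E₀ E (g j) * e j) = g i) (x : E) :
    Algebra.norm E₀ x = Matrix.det (Matrix.of fun i j => s i (x * e j)) := by
  rw [Algebra.norm_eq_matrix_det (decompBasis e s h1 h2)]
  congr 1
  ext i j
  rw [Algebra.leftMulMatrix_eq_repr_mul, decompBasis_repr, decompBasis_apply]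
  rfl

omit [DecidableEq ι] in
theorem norm_algebraMap_of_decomp (e : ι → E) (s : ι → E → E₀)
    (h1 : ∀ x, ∑ i, algebraMap E₀ E (s i x) * e i = x)
    (h2 : ∀ (g : ι → E₀) i, s i (∑ j, algebraMap E₀ E (g j) * e j) = g i) (c : E₀) :
    Algebra.norm E₀ (algebraMap E₀ E c) = c ^ Fintype.card ι :=
  Algebra.norm_algebraMap_of_basis (decompBasis e s h1 h2) c

end Abstract

/-! ## sections of a Laurent series -/

section Sect

variable {R : Type*} [CommRing R] (ℓ : ℕ) [NeZero ℓ]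

/-- `∑ a_n q^n ↦ ∑ a_{ℓ n + r} q^n`. -/
def qSect (r : ℤ) (f : LaurentSeries R) : LaurentSeries R :=
  GR.qContract ℓ (HahnSeries.single (-r) (1 : R) * f)

@[simp] theorem qSect_coeff (r : ℤ) (f : LaurentSeries R) (n : ℤ) :
    (qSect ℓ r f).coeff n = f.coeff ((ℓ : ℤ) * n + r) := by
  rw [qSect, GR.qContract_coeff, HahnSeries.coeff_single_mul, one_mul, sub_neg_eq_add]

theorem coeffMap_qSect {S : Type*} [CommRing S] (φ : R →+* S) (r : ℤ) (f : LaurentSeries R) :
    coeffMap φ (qSect ℓ r f) = qSect ℓ r (coeffMap φ f) := by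
  ext n
  simp

/-- the monomials `1, q, …, q^{ℓ-1}`. -/
def qMon (R : Type*) [CommRing R] (ℓ : ℕ) (i : Fin ℓ) : LaurentSeries R :=
  HahnSeries.single ((i : ℕ) : ℤ) (1 : R)

theorem coeff_sum_qExpand_mul_qMon (g : Fin ℓ → LaurentSeries R) (n : ℤ) (i : Fin ℓ) :
    (∑ j, qExpand R ℓ (g j) * qMon R ℓ j).coeff ((ℓ : ℤ) * n + ((i : ℕ) : ℤ)) = (g i).coeff n := by
  rw [HahnSeries.coeff_sum, Finset.sum_eq_single i]
  · rw [qMon, HahnSeries.coeff_mul_single, mul_one, add_sub_cancel_right, qExpand_coeff_mul]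
  · intro j _ hj
    rw [qMon, HahnSeries.coeff_mul_single, mul_one]
    apply qExpand_coeff_of_not_dvd
    intro hdvd
    apply hj
    have h1 : (ℓ : ℤ) ∣ ((i : ℕ) : ℤ) - ((j : ℕ) : ℤ) := by
      have : (ℓ : ℤ) * n + ((i : ℕ) : ℤ) - ((j : ℕ) : ℤ) =
          (ℓ : ℤ) * n + (((i : ℕ) : ℤ) - ((j : ℕ) : ℤ)) := by ring
      rw [this] at hdvd
      exact (Int.dvd_add_right (Dvd.intro n rfl)).mp hdvd
    have hi := i.2
    have hj' := j.2
    have h2 : ((i : ℕ) : ℤ) - ((j : ℕ) : ℤ) = 0 := by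
      apply Int.eq_zero_of_abs_lt_dvd h1
      rw [abs_lt]
      constructor <;> omega
    apply Fin.ext
    omega
  · intro h
    exact absurd (Finset.mem_univ i) h

theorem sum_qExpand_qSect_mul_qMon (f : LaurentSeries R) :
    ∑ i : Fin ℓ, qExpand R ℓ (qSect ℓ ((i : ℕ) : ℤ) f) * qMon R ℓ i = f := by
  ext m
  have hℓ : (0 : ℤ) < (ℓ : ℤ) := by exact_mod_cast Nat.pos_of_ne_zero (NeZero.ne ℓ)
  have h0 : 0 ≤ m % (ℓ : ℤ) := Int.emod_nonneg _ hℓ.ne'
  have h1 : m % (ℓ : ℤ) < ℓ := Int.emod_lt_of_pos _ hℓ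
  let i : Fin ℓ := ⟨(m % (ℓ : ℤ)).toNat, by omega⟩
  have hi : ((i : ℕ) : ℤ) = m % (ℓ : ℤ) := Int.toNat_of_nonneg h0
  have hm : m = (ℓ : ℤ) * (m / (ℓ : ℤ)) + ((i : ℕ) : ℤ) := by
    rw [hi]; exact (Int.mul_ediv_add_emod m ℓ).symm
  conv_lhs => rw [hm]
  rw [coeff_sum_qExpand_mul_qMon, qSect_coeff, ← hm]

theorem qSect_sum_qExpand_mul_qMon (g : Fin ℓ → LaurentSeries R) (i : Fin ℓ) :
    qSect ℓ ((i : ℕ) : ℤ) (∑ j, qExpand R ℓ (g j) * qMon R ℓ j) = g i := by
  ext n
  rw [qSect_coeff, coeff_sum_qExpand_mul_qMon]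

/-- the matrix of multiplication by `h` in the basis `1, q, …, q^{ℓ-1}` of `R((q))` over
`R((q^ℓ))`. -/
def mulMat (h : LaurentSeries R) : Matrix (Fin ℓ) (Fin ℓ) (LaurentSeries R) :=
  Matrix.of fun i j => qSect ℓ ((i : ℕ) : ℤ) (h * qMon R ℓ j)

theorem NmL_eq_det (h : LaurentSeries R) : NmL R ℓ h = (mulMat ℓ h).det :=
  @norm_eq_det_of_decomp (LaurentSeries R) (LaurentSeries R) (Fin ℓ) _ _ (qExpand R ℓ).toAlgebra
    _ _ (qMon R ℓ) (fun i => qSect ℓ ((i : ℕ) : ℤ)) (sum_qExpand_qSect_mul_qMon ℓ)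
    (qSect_sum_qExpand_mul_qMon ℓ) h

theorem NmL_qExpand (c : LaurentSeries R) : NmL R ℓ (qExpand R ℓ c) = c ^ ℓ := by
  have := @norm_algebraMap_of_decomp (LaurentSeries R) (LaurentSeries R) (Fin ℓ) _ _
    (qExpand R ℓ).toAlgebra _ (qMon R ℓ) (fun i => qSect ℓ ((i : ℕ) : ℤ))
    (sum_qExpand_qSect_mul_qMon ℓ) (qSect_sum_qExpand_mul_qMon ℓ) c
  rw [Fintype.card_fin] at this
  exact this

omit [NeZero ℓ] in
theorem coeffMap_qMon {S : Type*} [CommRing S] (φ : R →+* S) (j : Fin ℓ) :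
    coeffMap φ (qMon R ℓ j) = qMon S ℓ j := by
  rw [qMon, qMon, coeffMap_single, map_one]

end Sect

/-- (B1) the norm commutes with change of coefficients. -/
theorem NmL_coeffMap {R S : Type*} [CommRing R] [CommRing S] (f : R →+* S) (ℓ : ℕ) [NeZero ℓ]
    (h : LaurentSeries R) : coeffMap f (NmL R ℓ h) = NmL S ℓ (coeffMap f h) := by
  rw [NmL_eq_det, NmL_eq_det, RingHom.map_det]
  congr 1
  ext i j
  simp only [mulMat, RingHom.mapMatrix_apply, Matrix.map_apply, Matrix.of_apply]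
  rw [coeffMap_qSect, map_mul, coeffMap_qMon]

theorem heckeS_apply (R : Type*) [CommRing R] (ℓ : ℕ) [NeZero ℓ] (h : LaurentSeries R) :
    heckeS R ℓ h = qExpand R ℓ h * NmL R ℓ h := rfl

theorem heckeS_coeffMap {R S : Type*} [CommRing R] [CommRing S] (f : R →+* S) (ℓ : ℕ) [NeZero ℓ]
    (h : LaurentSeries R) : coeffMap f (heckeS R ℓ h) = heckeS S ℓ (coeffMap f h) := by
  rw [heckeS_apply, heckeS_apply, map_mul, NmL_coeffMap, GR.coeffMap_qExpand]

/-! ## the norm is the product of the conjugates -/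

section Conj

variable {R : Type*} [CommRing R] [IsDomain R] (ℓ : ℕ) [NeZero ℓ]

theorem qExpand_NmL {ζ : Rˣ} (hζ : IsPrimitiveRoot ζ ℓ) (h : LaurentSeries R) :
    qExpand R ℓ (NmL R ℓ h) = GR.conjProd ℓ ζ h := by
  classical
  -- the Vandermonde matrix of the conjugates of `q`
  let v : Fin ℓ → LaurentSeries R := fun b => HahnSeries.single (1 : ℤ) ((ζ ^ (b : ℕ) : Rˣ) : R)
  let W := Matrix.vandermonde v
  let M' := (qExpand R ℓ).mapMatrix (mulMat ℓ h)
  let D : Matrix (Fin ℓ) (Fin ℓ) (LaurentSeries R) :=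
    Matrix.diagonal fun b => GR.qScale (ζ ^ (b : ℕ)) h
  have hv : ∀ (b j : Fin ℓ), v b ^ (j : ℕ) = GR.qScale (ζ ^ (b : ℕ)) (qMon R ℓ j) := by
    intro b j
    rw [qMon, GR.qScale_single, HahnSeries.single_pow, mul_one, zpow_natCast,
      Units.val_pow_eq_pow_val]
    simp
  have hfix : ∀ (b : Fin ℓ) (g : LaurentSeries R),
      GR.qScale (ζ ^ (b : ℕ)) (qExpand R ℓ g) = qExpand R ℓ g := by
    intro b g
    rw [GR.qScale_qExpand, ← pow_mul, mul_comm, pow_mul, hζ.pow_eq_one, one_pow, GR.qScale_one]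
  have hWM : W * M' = D * W := by
    apply Matrix.ext
    intro b j
    rw [Matrix.mul_apply, Matrix.diagonal_mul]
    have h1 := congrArg (GR.qScale (ζ ^ (b : ℕ))) (sum_qExpand_qSect_mul_qMon ℓ (h * qMon R ℓ j))
    rw [map_sum, map_mul] at h1
    simp only [map_mul, hfix] at h1
    simp only [W, M', Matrix.vandermonde_apply, RingHom.mapMatrix_apply, Matrix.map_apply, mulMat,
      Matrix.of_apply, hv]
    rw [← h1]
    exact Finset.sum_congr rfl fun i _ => mul_comm _ _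
  have hdet := congrArg Matrix.det hWM
  rw [Matrix.det_mul, Matrix.det_mul, Matrix.det_diagonal, mul_comm] at hdet
  have hW : W.det ≠ 0 := by
    rw [Matrix.det_vandermonde_ne_zero_iff]
    intro a b hab
    have h2 := congrArg (fun f => HahnSeries.coeff f 1) hab
    simp only [v, HahnSeries.coeff_single_same] at h2
    exact Fin.ext (hζ.pow_inj a.2 b.2 (Units.ext h2))
  have h3 := mul_right_cancel₀ hW hdet
  rw [NmL_eq_det, RingHom.map_det, h3, GR.conjProd, Finset.prod_range]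

theorem NmL_eq_normU {ζ : Rˣ} (hζ : IsPrimitiveRoot ζ ℓ) (h : LaurentSeries R) :
    NmL R ℓ h = GR.normU ℓ ζ h := by
  rw [GR.normU, ← qExpand_NmL ℓ hζ, GR.qContract_qExpand]

theorem heckeS_eq_formalT {ζ : Rˣ} (hζ : IsPrimitiveRoot ζ ℓ) (h : LaurentSeries R) :
    heckeS R ℓ h = GR.formalT ℓ ζ h := by
  rw [heckeS_apply, GR.formalT, NmL_eq_normU ℓ hζ]

end Conj

end Fermat.Agent.GAL
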