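import Mathlib
import Fermat.Agent.GAL.ESR.Norm

/-!
# GAL, block B (ESR): formal Eichler-Shimura.  Deliverables (B2)-(B6) of `Master.lean`
((B1) `NmL_coeffMap` is in `ESR/Norm.lean`).
-/

set_option autoImplicit false
noncomputable section

namespace Fermat.Agent.GAL

open ModularCurve HahnSeries

/-- (B3) `h^{(ℓ)}(q^ℓ) = h(q)^ℓ` in characteristic `ℓ`. -/
theorem qExpand_frobenius {R : Type*} [CommRing R] (ℓ : ℕ) [Fact ℓ.Prime] [CharP R ℓ]
    (h : LaurentSeries R) :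
    haveI : NeZero ℓ := ⟨(Fact.out : ℓ.Prime).ne_zero⟩
    qExpand R ℓ (coeffMap (frobenius R ℓ) h) = h ^ ℓ := by
  have : NeZero ℓ := ⟨(Fact.out : ℓ.Prime).ne_zero⟩
  exact (GR.pow_char_eq_qExpand ℓ h).symm

theorem charP_laurentSeries (R : Type*) [CommRing R] (ℓ : ℕ) [CharP R ℓ] :
    CharP (LaurentSeries R) ℓ :=
  charP_of_injective_ringHom (f := (HahnSeries.C : R →+* LaurentSeries R))
    HahnSeries.C_injective ℓ

/-- (B2) for domains. -/
theorem NmL_charP_of_isDomain {R : Type*} [CommRing R] [IsDomain R] (ℓ : ℕ) [Fact ℓ.Prime]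
    [CharP R ℓ] [NeZero ℓ] (h : LaurentSeries R) :
    NmL R ℓ h = coeffMap (frobenius R ℓ) h := by
  have := charP_laurentSeries R ℓ
  apply frobenius_inj (LaurentSeries R) ℓ
  rw [frobenius_def, frobenius_def, ← map_pow, GR.pow_char_eq_qExpand ℓ h, NmL_qExpand]

/-- every Laurent series over `R` lifts along a surjection from a polynomial ring. -/
theorem exists_lift_mvPolynomial {R : Type*} [CommRing R] (ℓ : ℕ) [CharP R ℓ]
    (h : LaurentSeries R) :
    ∃ (φ : MvPolynomial R (ZMod ℓ) →+* R) (H : LaurentSeries (MvPolynomial R (ZMod ℓ))),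
      coeffMap φ H = h := by
  classical
  let φ : MvPolynomial R (ZMod ℓ) →+* R := MvPolynomial.eval₂Hom (ZMod.castHom (dvd_refl ℓ) R) id
  let g : ZeroHom R (MvPolynomial R (ZMod ℓ)) :=
    ⟨fun r => if r = 0 then 0 else MvPolynomial.X r, by simp⟩
  refine ⟨φ, h.map g, ?_⟩
  ext n
  rw [coeffMap_coeff, HahnSeries.map_coeff]
  show φ (if h.coeff n = 0 then 0 else MvPolynomial.X (h.coeff n)) = h.coeff n
  split_ifs with h0
  · rw [map_zero, h0]
  · simp [φ]

/-- (B2) in characteristic `ℓ` the norm is the Frobenius on coefficients. -/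
theorem NmL_charP {R : Type*} [CommRing R] (ℓ : ℕ) [Fact ℓ.Prime] [CharP R ℓ]
    (h : LaurentSeries R) :
    haveI : NeZero ℓ := ⟨(Fact.out : ℓ.Prime).ne_zero⟩
    NmL R ℓ h = coeffMap (frobenius R ℓ) h := by
  have : NeZero ℓ := ⟨(Fact.out : ℓ.Prime).ne_zero⟩
  obtain ⟨φ, H, rfl⟩ := exists_lift_mvPolynomial ℓ h
  rw [← NmL_coeffMap, NmL_charP_of_isDomain, coeffMap_coeffMap, coeffMap_coeffMap]
  apply coeffMap_congr
  ext x
  · simp [frobenius_def]
  · simp [frobenius_def]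

/-- in characteristic `ℓ`: `T_ℓ = V · F`. -/
theorem heckeS_charP {R : Type*} [CommRing R] (ℓ : ℕ) [Fact ℓ.Prime] [CharP R ℓ] [NeZero ℓ]
    (h : LaurentSeries R) :
    heckeS R ℓ h = qExpand R ℓ h * coeffMap (frobenius R ℓ) h := by
  rw [heckeS_apply, NmL_charP]

/-- (B6) Galois commutes with the Hecke operator. -/
theorem galS_heckeS (σ : GQ) (ℓ : ℕ) [NeZero ℓ] (h : LaurentSeries Qb) :
    galS σ (heckeS Qb ℓ h) = heckeS Qb ℓ (galS σ h) :=
  heckeS_coeffMap _ ℓ h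

/-- (B4) **formal Eichler–Shimura congruence**. -/
theorem es_formal (ℓ : ℕ) [Fact ℓ.Prime] (A : ValuationSubring Qb) (hA : A.LiesOverPrime ℓ)
    (σ : GQ) (hσ : A.IsFrobeniusAt σ ℓ) (h₀ : LaurentSeries A) (hu : IsUnit h₀) :
    haveI : NeZero ℓ := ⟨(Fact.out : ℓ.Prime).ne_zero⟩
    ∃ R₀ : LaurentSeries A, redA A R₀ = 1 ∧
      inclA A R₀ * heckeS Qb ℓ (galS σ (inclA A h₀)) =
        galS σ (galS σ (inclA A h₀)) * (inclA A h₀) ^ ℓ := by
  have : NeZero ℓ := ⟨(Fact.out : ℓ.Prime).ne_zero⟩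
  have hℓ : ℓ.Prime := Fact.out
  have := GR.charP_residueField hℓ hA
  have : ExpChar (IsLocalRing.ResidueField A) ℓ := ExpChar.prime hℓ
  set s : LaurentSeries A →+* LaurentSeries A :=
    coeffMap (GR.decompHom σ hσ.mem_decompositionSubgroup) with hs
  have hincl : ∀ y, inclA A (s y) = galS σ (inclA A y) := GR.incl_decompHom σ _
  have hred : ∀ y, redA A (s y) =
      coeffMap (frobenius (IsLocalRing.ResidueField A) ℓ) (redA A y) :=
    GR.red_decompHom_of_frobenius hσ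
  have hT : IsUnit (heckeS A ℓ (s h₀)) := (hu.map s).map (heckeS A ℓ)
  obtain ⟨T', hT'⟩ := hT.exists_right_inv
  refine ⟨s (s h₀) * h₀ ^ ℓ * T', ?_, ?_⟩
  · have h1 : redA A (heckeS A ℓ (s h₀)) = redA A h₀ ^ ℓ * redA A (s (s h₀)) := by
      rw [redA, heckeS_coeffMap, ← redA, hred, hred, hred, heckeS_charP,
        GR.pow_char_eq_qExpand ℓ (redA A h₀)]
    have h2 := congrArg (redA A) hT'
    rw [map_mul, map_one, h1] at h2
    rw [map_mul, map_mul, map_pow, ← h2]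
    ring
  · have h1 : heckeS Qb ℓ (galS σ (inclA A h₀)) = inclA A (heckeS A ℓ (s h₀)) := by
      rw [inclA, heckeS_coeffMap, ← inclA, hincl]
    rw [h1, ← map_mul, mul_assoc, mul_comm T', hT', mul_one, map_mul, map_pow, hincl, hincl]

/-- (B5) inertia acts trivially modulo the maximal ideal. -/
theorem inertia_formal (A : ValuationSubring Qb) (σ : GQ) (hσ : σ ∈ A.inertiaSubgroupIn ℚ)
    (h₀ : LaurentSeries A) (hu : IsUnit h₀) :
    ∃ R₀ : LaurentSeries A, redA A R₀ = 1 ∧ inclA A R₀ * inclA A h₀ = galS σ (inclA A h₀) := by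
  obtain ⟨hd, hred⟩ := GR.red_decompHom_of_inertia hσ
  obtain ⟨h', hh'⟩ := hu.exists_right_inv
  refine ⟨coeffMap (GR.decompHom σ hd) h₀ * h', ?_, ?_⟩
  · have h2 := congrArg (redA A) hh'
    rw [map_mul, map_one] at h2
    rw [map_mul, ← h2]
    congr 1
    exact hred h₀
  · rw [← map_mul, mul_assoc, mul_comm h', hh', mul_one]
    exact GR.incl_decompHom σ hd h₀

end Fermat.Agent.GAL
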