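import Mathlib
import Fermat.Agent.GAL.ESR.Main
import Fermat.Agent.GR.GaussRed

/-!
# GAL, block B (ESR): Eichler-Shimura and inertia congruences for elements of the function field

No unit/boundedness hypothesis: for every `u ≠ 0` in `FL Qb M` the elements
`σ²u · u^ℓ / T_ℓ(σ u)` and `σ u / u` have, up to a nonzero constant, reduction `1` in the sense of
`GR.HasRed` (Gauss valuation).
-/

set_option autoImplicit false
noncomputable section

namespace Fermat.Agent.GAL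

open ModularCurve HahnSeries

theorem heckeS_C {R : Type*} [CommRing R] (ℓ : ℕ) [NeZero ℓ] (a : R) :
    heckeS R ℓ (HahnSeries.C a) = HahnSeries.C (a ^ (ℓ + 1)) := by
  have h1 : qExpand R ℓ (HahnSeries.C a) = HahnSeries.C a := qExpand_C ℓ a
  have h2 : NmL R ℓ (HahnSeries.C a) = HahnSeries.C a ^ ℓ := by
    conv_lhs => rw [← h1]
    exact NmL_qExpand ℓ _
  rw [heckeS_apply, h1, h2, ← pow_succ', map_pow]

theorem galS_C (σ : GQ) (a : Qb) : galS σ (HahnSeries.C a) = HahnSeries.C (σ a) :=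
  coeffMap_single _ _ _

theorem exists_primitiveRoot_Qb (ℓ : ℕ) [NeZero ℓ] : ∃ ζ : Qbˣ, IsPrimitiveRoot ζ ℓ := by
  have : NeZero ((ℓ : ℕ) : Qb) := ⟨by exact_mod_cast NeZero.ne ℓ⟩
  obtain ⟨ζ, hζ⟩ := HasEnoughRootsOfUnity.exists_primitiveRoot Qb ℓ
  exact ⟨hζ.isUnit (NeZero.ne ℓ) |>.unit, IsPrimitiveRoot.coe_units_iff.mp (by simpa using hζ)⟩

/-- **Eichler-Shimura congruence on the function field**, Gauss valuation form. -/
theorem es_gauss (ℓ : ℕ) [NeZero ℓ] (hℓ : ℓ.Prime) (A : ValuationSubring Qb)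
    (hA : A.LiesOverPrime ℓ) (σ : GQ) (hσ : A.IsFrobeniusAt σ ℓ) (M : ℕ)
    {u : LaurentSeries Qb} (hu : u ∈ FL Qb M) (hu0 : u ≠ 0) :
    ∃ c : Qb, c ≠ 0 ∧
      GR.HasRed A (HahnSeries.C c * (galS σ (galS σ u) * u ^ ℓ / heckeS Qb ℓ (galS σ u))) 1 := by
  obtain ⟨ζ, hζ⟩ := exists_primitiveRoot_Qb ℓ
  obtain ⟨c₀, hc₀, z, hz, hred⟩ := GR.exists_hasRed_C_mul_of_mem_FL A M hu hu0
  have h := GR.hasRed_eichlerShimura hℓ hA hσ hζ hred hz
  refine ⟨σ (σ c₀) * c₀ ^ ℓ / (σ c₀) ^ (ℓ + 1), ?_, ?_⟩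
  · have h1 : σ c₀ ≠ 0 := (map_ne_zero σ).mpr hc₀
    have h2 : σ (σ c₀) ≠ 0 := (map_ne_zero σ).mpr h1
    exact div_ne_zero (mul_ne_zero h2 (pow_ne_zero _ hc₀)) (pow_ne_zero _ h1)
  · convert h using 1
    rw [← heckeS_eq_formalT ℓ hζ]
    change _ = galS σ (galS σ (HahnSeries.C c₀ * u)) * (HahnSeries.C c₀ * u) ^ ℓ /
      heckeS Qb ℓ (galS σ (HahnSeries.C c₀ * u))
    simp only [map_mul, galS_C, heckeS_C, map_div₀, map_pow, mul_pow]
    rw [mul_div_mul_comm]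
    ring

/-- **inertia congruence on the function field**, Gauss valuation form. -/
theorem inertia_gauss (A : ValuationSubring Qb) (σ : GQ) (hσ : σ ∈ A.inertiaSubgroupIn ℚ) (M : ℕ)
    {u : LaurentSeries Qb} (hu : u ∈ FL Qb M) (hu0 : u ≠ 0) :
    ∃ c : Qb, c ≠ 0 ∧ GR.HasRed A (HahnSeries.C c * (galS σ u / u)) 1 := by
  obtain ⟨c₀, hc₀, z, hz, hred⟩ := GR.exists_hasRed_C_mul_of_mem_FL A M hu hu0
  have h := GR.hasRed_inertia hσ hred hz
  refine ⟨σ c₀ / c₀, div_ne_zero ((map_ne_zero σ).mpr hc₀) hc₀, ?_⟩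
  convert h using 1
  change _ = galS σ (HahnSeries.C c₀ * u) / (HahnSeries.C c₀ * u)
  simp only [map_mul, galS_C, map_div₀]
  rw [mul_div_mul_comm]

end Fermat.Agent.GAL
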